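/-
S43lib / B3 / Arith / BadPrime (helper4): **a prime dividing `abc` divides the discriminant of every integral
model of the Frey curve** (`BadPrimeStmt` of `S43lib/B0/Iface.lean`, unfolded).

For the integral Frey model `W₀ = P.freyCurveInt`: `256 Δ(W₀) = (a^p b^p c^p)²` and `W₀` is semistable
(`S12lib.freyModelStmt`).  A prime `r ∣ abc` divides `Δ(W₀)` (for `r = 2` use `32 ∣ b^p`), hence not `c₄(W₀)`;
for any integral model `W` of the same curve `c₄(W)³ Δ(W₀) = c₄(W₀)³ Δ(W)`, so `r ∣ Δ(W)`.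
-/
import Mathlib
import Fermat.Agent.S12lib.FreyModel
import Fermat.Prelude.Def_FLTPrelim_Modularity

set_option autoImplicit false
set_option linter.unusedSectionVars false

namespace Fermat.Agent.S43lib.B3

open Fermat.Agent.S12lib Fermat.Agent.S12lib.FreyModel

/-- a prime dividing `abc` divides the discriminant of the integral Frey model -/
theorem dvd_freyCurveInt_Δ (P : FreyPackage) (r : ℕ) (hr : r.Prime)
    (hdvd : (r : ℤ) ∣ P.a * P.b * P.c) : (r : ℤ) ∣ P.freyCurveInt.Δ := by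
  have hr' : Prime (r : ℤ) := Nat.prime_iff_prime_int.mp hr
  have hdisc := disc_eq P
  by_cases h2 : r = 2
  · subst h2
    obtain ⟨u, hu⟩ := dvd_b_pow P
    have h4 : P.freyCurveInt.Δ = 4 * (P.a ^ P.p * u * P.c ^ P.p) ^ 2 := by
      have : 256 * P.freyCurveInt.Δ = 256 * (4 * (P.a ^ P.p * u * P.c ^ P.p) ^ 2) := by
        rw [hdisc, hu]; ring
      exact mul_left_cancel₀ (by norm_num) this
    rw [h4]
    exact ⟨2 * (P.a ^ P.p * u * P.c ^ P.p) ^ 2, by push_cast; ring⟩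
  · have hpow : (r : ℤ) ∣ (P.a ^ P.p * P.b ^ P.p * P.c ^ P.p) ^ 2 := by
      have h1 : (P.a ^ P.p * P.b ^ P.p * P.c ^ P.p) = (P.a * P.b * P.c) ^ P.p := by ring
      rw [h1]
      exact dvd_pow (dvd_pow hdvd P.hp0) two_ne_zero
    rw [← hdisc] at hpow
    rcases hr'.dvd_or_dvd hpow with h | h
    · exfalso
      have h256 : (r : ℤ) ∣ 2 ^ 8 := by norm_num; exact h
      have hr2 : (r : ℤ) ∣ 2 := hr'.dvd_of_dvd_pow h256
      have : r ∣ 2 := by exact_mod_cast hr2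
      exact h2 ((Nat.prime_dvd_prime_iff_eq hr Nat.prime_two).1 this)
    · exact h

/-- **`BadPrimeStmt`** (unfolded). -/
theorem badPrime (P : FreyPackage) (W : WeierstrassCurve ℤ) (r : ℕ) (hr : r.Prime)
    (hW : W.IsIntegralModelOf P.freyCurve) (hdvd : (r : ℤ) ∣ P.a * P.b * P.c) : (r : ℤ) ∣ W.Δ := by
  have hr' : Prime (r : ℤ) := Nat.prime_iff_prime_int.mp hr
  obtain ⟨hbc, -, hss⟩ := freyModelStmt P
  have h0 := dvd_freyCurveInt_Δ P r hr hdvd
  have hc4 : ¬ (r : ℤ) ∣ P.freyCurveInt.c₄ := hss r hr h0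
  obtain ⟨C, hC⟩ := hW
  -- the identity `c₄(W)³ Δ(W₀) = c₄(W₀)³ Δ(W)`
  have hΔ : ((W.Δ : ℤ) : ℚ) = C.u⁻¹ ^ 12 * ((P.freyCurveInt.Δ : ℤ) : ℚ) := by
    have h1 := congrArg WeierstrassCurve.Δ hC
    rw [WeierstrassCurve.variableChange_Δ, hbc, WeierstrassCurve.map_Δ, WeierstrassCurve.map_Δ] at h1
    exact h1.symm
  have hc : ((W.c₄ : ℤ) : ℚ) = C.u⁻¹ ^ 4 * ((P.freyCurveInt.c₄ : ℤ) : ℚ) := by
    have h1 := congrArg WeierstrassCurve.c₄ hC
    rw [WeierstrassCurve.variableChange_c₄, hbc, WeierstrassCurve.map_c₄, WeierstrassCurve.map_c₄] at h1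
    exact h1.symm
  have hid : W.c₄ ^ 3 * P.freyCurveInt.Δ = P.freyCurveInt.c₄ ^ 3 * W.Δ := by
    have : ((W.c₄ ^ 3 * P.freyCurveInt.Δ : ℤ) : ℚ) = ((P.freyCurveInt.c₄ ^ 3 * W.Δ : ℤ) : ℚ) := by
      push_cast
      rw [hΔ, hc]
      ring
    exact_mod_cast this
  have h3 : (r : ℤ) ∣ P.freyCurveInt.c₄ ^ 3 * W.Δ := hid ▸ Dvd.dvd.mul_left h0 _
  rcases hr'.dvd_or_dvd h3 with h | h
  · exact absurd (hr'.dvd_of_dvd_pow h) hc4
  · exact h

end Fermat.Agent.S43lib.B3
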