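/-
S43lib / B3 / Arith / Decomp (helper4): **on an unramified finite-level quotient the decomposition group acts
through powers of a Frobenius element** (`DecompFrobStmt` of `S43lib/B0/Iface.lean`, unfolded).

* `exists_frob_pow_of_mem_decomposition` : for `f : G_ℚ → H` of finite level and trivial on the inertia group of
  the standard place over `q`, every `s` in the decomposition group has `f s = f φ₀ ^ j`, `φ₀` the chosen
  Frobenius element `localGaloisToGlobal q (tameFrob q)`;
* `exists_frob_pow_of_mem_decomposition_place` : the same at an arbitrary place `A` over `q`;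
* `decompFrob` : the Frey form.
-/
import Mathlib
import Fermat.Agent.S43lib.B3.TameGlobal
import Fermat.Agent.S44lib.Iface
import Fermat.Agent.S29lib.P.FreyFiniteLevel

set_option autoImplicit false
set_option linter.unusedSectionVars false
set_option linter.style.haveILetI false

open scoped NormedField Valued NNReal Pointwise

noncomputable section

namespace Fermat.Agent.S43lib.B3

open Fermat.Agent.S55lib Fermat.Agent.S55lib.LocalUnr Fermat.Agent.S56lib.Kum
  Fermat.Agent.S56lib.PT9a IsUltrametricDist ExtCitation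

local notation "Qb" => AlgebraicClosure ℚ
local notation "GQ" => (AlgebraicClosure ℚ ≃ₐ[ℚ] AlgebraicClosure ℚ)

section Local

variable {q : ℕ} [hq : Fact q.Prime]

local notation "Ω" => PadicAlgCl q
local notation "Γq" => (PadicAlgCl q ≃ₐ[ℚ_[q]] PadicAlgCl q)

/-- every element of the decomposition group of the standard place agrees with a local automorphism modulo
any finite level -/
theorem exists_local_of_mem_decomposition {H : Type*} [Group H] (f : GQ →* H)
    (F : IntermediateField ℚ Qb) [FiniteDimensional ℚ F] (hF : ∀ s ∈ F.fixingSubgroup, f s = 1)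
    {s : GQ} (hs : s ∈ (padicPlace q).decompositionSubgroup ℚ) :
    ∃ τ : Γq, f s = f (localGaloisToGlobal q τ) := by
  set F' : IntermediateField ℚ Qb := IntermediateField.normalClosure ℚ F Qb with hF'def
  have hnorm : Normal ℚ Qb := IsAlgClosure.normal ℚ Qb
  have hN' : Normal ℚ F' := normalClosure.normal _ _ _
  have hfd' : FiniteDimensional ℚ F' := normalClosure.is_finiteDimensional _ _ _
  have hG' : IsGalois ℚ F' := ⟨⟩
  have hFF' : F ≤ F' := IntermediateField.le_normalClosure F
  obtain ⟨τ, hτ⟩ := Fermat.Agent.S56lib.TWSel.exists_local_lift q hs F'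
  refine ⟨τ, ?_⟩
  have h1 := hF _ (IntermediateField.fixingSubgroup_antitone hFF' hτ)
  rw [map_mul, map_inv, inv_mul_eq_one] at h1
  exact h1.symm

/-- **unramified finite-level quotients: the decomposition group acts through powers of Frobenius**
(standard place) -/
theorem exists_frob_pow_of_mem_decomposition {H : Type*} [Group H] (f : GQ →* H)
    (F : IntermediateField ℚ Qb) [FiniteDimensional ℚ F] (hF : ∀ s ∈ F.fixingSubgroup, f s = 1)
    (hI : ∀ s ∈ (padicPlace q).inertiaSubgroupIn ℚ, f s = 1)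
    {s : GQ} (hs : s ∈ (padicPlace q).decompositionSubgroup ℚ) :
    ∃ j : ℕ, f s = f (localGaloisToGlobal q (tameFrob q)) ^ j := by
  obtain ⟨τ, hτ⟩ := exists_local_of_mem_decomposition f F hF hs
  have hLU : (levelOf q F).fixingSubgroup ≤ (f.comp (localGaloisToGlobal q)).ker := fun g hg =>
    MonoidHom.mem_ker.2 (hF _ (localGaloisToGlobal_mem_fixingSubgroup F hg))
  obtain ⟨j, i, hi, hgi⟩ :=
    exists_mul_pow_inv_mul_inv_mem (levelOf q F) hLU (tameFrob_spec (q := q)) τ
  rw [MonoidHom.mem_ker, map_mul, map_mul, map_inv, map_inv, map_pow, mul_inv_eq_one,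
    mul_inv_eq_iff_eq_mul, MonoidHom.comp_apply, MonoidHom.comp_apply, MonoidHom.comp_apply,
    hI _ (localGaloisToGlobal_mem_inertia q (fixesTame_of_mem_fixingSubgroup q hi)), one_mul] at hgi
  exact ⟨j, hτ.trans hgi⟩

/-- the same at an arbitrary place over `q` -/
theorem exists_frob_pow_of_mem_decomposition_place {H : Type*} [Group H] (f : GQ →* H)
    (F : IntermediateField ℚ Qb) [FiniteDimensional ℚ F] (hF : ∀ s ∈ F.fixingSubgroup, f s = 1)
    (A : ValuationSubring Qb) (hA : A.LiesOverPrime q)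
    (hI : ∀ s ∈ A.inertiaSubgroupIn ℚ, f s = 1)
    {s : GQ} (hs : s ∈ A.decompositionSubgroup ℚ) :
    ∃ (φ : GQ) (j : ℕ), A.IsFrobeniusAt φ q ∧ f s = f φ ^ j := by
  obtain ⟨g, hg⟩ := Fermat.Agent.S56lib.TWSel.exists_smul_eq_of_liesOverPrime hq.out
    (padicPlace_liesOverPrime q) hA
  have hI' : ∀ t ∈ (padicPlace q).inertiaSubgroupIn ℚ, f t = 1 := by
    intro t ht
    have h1 := hI (g * t * g⁻¹) (hg ▸ Fermat.Agent.S56lib.TWSel.conj_mem_inertia ht)
    rw [map_mul, map_mul, map_inv, mul_inv_eq_one] at h1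
    exact mul_left_cancel (a := f g) (by rw [h1, mul_one])
  have hs' : g⁻¹ * s * g ∈ (padicPlace q).decompositionSubgroup ℚ := by
    have h1 : g⁻¹ * s * g⁻¹⁻¹ ∈ (g⁻¹ • A).decompositionSubgroup ℚ :=
      Fermat.Agent.S56lib.TWSel.conj_mem_decomp_smul hs
    rw [inv_inv, hg, inv_smul_smul] at h1
    exact h1
  obtain ⟨j, hj⟩ := exists_frob_pow_of_mem_decomposition f F hF hI' hs'
  refine ⟨g * localGaloisToGlobal q (tameFrob q) * g⁻¹, j,
    hg ▸ Fermat.Agent.S56lib.TWSel.isFrobeniusAt_conj localGaloisToGlobal_tameFrob_isFrobeniusAt, ?_⟩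
  rw [map_mul, map_mul, map_inv] at hj
  rw [map_mul, map_mul, map_inv, conj_pow, ← hj]
  group

end Local

/-- **`DecompFrobStmt`** (unfolded): if the inertia group at `A ∣ r` acts trivially on `E[p]` of the Frey curve,
every element of the decomposition group at `A` acts on `E[p]` as a power of a Frobenius element at `A`. -/
theorem decompFrob (P : FreyPackage) (r : ℕ) (A : ValuationSubring Qb) (hr : r.Prime)
    (hA : A.LiesOverPrime r)
    (hI : ∀ σ ∈ Fermat.Agent.S19lib.IA A, ∀ x : Fermat.Agent.S44lib.FreyTors P, σ • x = x) :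
    ∀ σ ∈ A.decompositionSubgroup ℚ, ∃ (φ : GQ) (j : ℕ), A.IsFrobeniusAt φ r ∧
      ∀ x : Fermat.Agent.S44lib.FreyTors P, σ • x = φ ^ j • x := by
  intro σ hσ
  haveI : Fact r.Prime := ⟨hr⟩
  obtain ⟨F, hFfd, hF⟩ := Fermat.Agent.S29lib.P.frey_factorsThroughFiniteLevel P
  set f : GQ →* Equiv.Perm (Fermat.Agent.S44lib.FreyTors P) :=
    MulAction.toPermHom GQ (Fermat.Agent.S44lib.FreyTors P) with hf
  have hfF : ∀ s ∈ F.fixingSubgroup, f s = 1 := by
    intro s hs
    have h1 := hF s ((IntermediateField.mem_fixingSubgroup_iff F s).1 hs)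
    apply Equiv.ext
    intro x
    exact LinearMap.congr_fun h1 x
  have hfI : ∀ s ∈ A.inertiaSubgroupIn ℚ, f s = 1 := by
    intro s hs
    apply Equiv.ext
    intro x
    exact hI s hs x
  obtain ⟨φ, j, hφ, hj⟩ := exists_frob_pow_of_mem_decomposition_place f F hfF A hA hfI hσ
  refine ⟨φ, j, hφ, fun x => ?_⟩
  have h2 := Equiv.congr_fun hj x
  rw [← map_pow] at h2
  exact h2

end Fermat.Agent.S43lib.B3
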