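/-
S43lib / B3 / Arith / Det (helper4): **the determinant of the mod `p` representation of an elliptic curve is the
mod `p` cyclotomic character** (`DetFrobStmt` of `S43lib/B0/Iface.lean`, unfolded, and `hdet` of S56).

* `frobenius_apply_rootOfUnity` : a Frobenius element at `ℓ` raises the roots of unity of order prime to `ℓ` to
  the `ℓ`-th power;
* `det_rhoE_eq_of_rootAction` : for an integral model `W` (`Δ ≠ 0`) and `g : G_ℚ` acting on `μ_p` by `μ ↦ μ ^ a`: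
  `det (rhoE W p g) = a` in `ZMod p`  (weak Chebotarev `S31lib.WC.brickWC` + `S44lib.Q1.trace_det_rhoE_frob`);
* `detFrob` : a Frobenius element at `r ≠ p` acting on `E[p]` of the Frey curve through the scalar `c` has
  `c² ≡ r (mod p)`.
-/
import Mathlib
import Fermat.Agent.S44lib.Q1.Main
import Fermat.Agent.S56lib.TWSel.Frob
import Fermat.Agent.S31lib.WC.Export
import Fermat.Agent.S12lib.FreyModel

set_option autoImplicit false
set_option linter.unusedSectionVars false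
set_option linter.style.haveILetI false

noncomputable section

namespace Fermat.Agent.S43lib.B3

open Fermat.Agent.S56lib.TWSel Fermat.Agent.S44lib.Q1 Fermat.Agent.S58lib.Tate Polynomial Matrix

local notation "Qb" => AlgebraicClosure ℚ
local notation "GQ" => (AlgebraicClosure ℚ ≃ₐ[ℚ] AlgebraicClosure ℚ)

/-! ### roots of unity modulo a place -/

/-- an `N`-th root of unity (`N` prime to the residue characteristic) congruent to `1` is `1` -/
theorem eq_one_of_one_sub_mem_nonunits {A : ValuationSubring Qb} {ℓ N : ℕ}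
    (hA : A.LiesOverPrime ℓ) (hN : 0 < N) (hcop : Nat.Coprime N ℓ) {ξ : Qb} (hξ : ξ ^ N = 1)
    (h : 1 - ξ ∈ A.nonunits) : ξ = 1 := by
  haveI : NeZero N := ⟨hN.ne'⟩
  obtain ⟨ζ, hζ⟩ := HasEnoughRootsOfUnity.exists_primitiveRoot Qb N
  obtain ⟨m, hmN, rfl⟩ := hζ.eq_pow_of_pow_eq_one hξ
  by_contra hne
  have hm0 : m ≠ 0 := by
    rintro rfl
    exact hne (pow_zero ζ)
  have hζA : ∀ i : ℕ, ζ ^ i ∈ A := fun i =>
    zbar_mem A ⟨ζ ^ i, (isIntegral_of_isPrimitiveRoot hN hζ).pow i⟩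
  obtain ⟨n, rfl⟩ : ∃ n, N = n + 1 := ⟨N - 1, (Nat.sub_add_cancel hN).symm⟩
  have hprod := hζ.prod_one_sub_pow_eq_order
  have hmem : m - 1 ∈ Finset.range n := by
    rw [Finset.mem_range]; omega
  rw [← Finset.mul_prod_erase _ _ hmem, Nat.sub_add_cancel (Nat.pos_of_ne_zero hm0)] at hprod
  have hrest : ∏ x ∈ (Finset.range n).erase (m - 1), (1 - ζ ^ (x + 1)) ∈ A := by
    refine Subring.prod_mem A.toSubring fun i _ => ?_
    exact A.sub_mem A.one_mem (hζA _)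
  have hNmem : ((n + 1 : ℕ) : Qb) ∈ A.nonunits := by
    have : ((n + 1 : ℕ) : Qb) = (∏ x ∈ (Finset.range n).erase (m - 1), (1 - ζ ^ (x + 1)))
        * (1 - ζ ^ m) := by
      push_cast
      rw [← hprod, mul_comm]
    rw [this]
    exact mul_mem_nonunits_of_mem hrest h
  have hcop' : IsCoprime ((n + 1 : ℕ) : ℤ) (ℓ : ℤ) := Nat.isCoprime_iff_coprime.2 hcop
  obtain ⟨a, b, hab⟩ := hcop'
  have h1mem : (1 : Qb) ∈ A.nonunits := by
    have : (1 : Qb) = (a : Qb) * ((n + 1 : ℕ) : Qb) + (b : Qb) * (ℓ : Qb) := by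
      have := congrArg (fun z : ℤ => (z : Qb)) hab
      push_cast at this ⊢
      rw [this]
    rw [this]
    refine add_mem_nonunits (mul_mem_nonunits_of_mem ?_ hNmem) (mul_mem_nonunits_of_mem ?_ hA)
    · exact intCast_mem A.toSubring a
    · exact intCast_mem A.toSubring b
  rw [ValuationSubring.mem_nonunits_iff] at h1mem
  simp at h1mem

/-- **a Frobenius element at `ℓ` acts on the roots of unity of order prime to `ℓ` by `μ ↦ μ ^ ℓ`** -/
theorem frobenius_apply_rootOfUnity {A : ValuationSubring Qb} {ℓ N : ℕ}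
    (hA : A.LiesOverPrime ℓ) (hN : 0 < N) (hcop : Nat.Coprime N ℓ) {μ : Qb} (hμ : μ ^ N = 1)
    {φ : GQ} (hφ : A.IsFrobeniusAt φ ℓ) : φ μ = μ ^ ℓ := by
  have hμint : IsIntegral ℤ μ := ⟨X ^ N - 1, monic_X_pow_sub_C 1 hN.ne', by simp [hμ]⟩
  have hμA : ∀ i : ℕ, μ ^ i ∈ A := fun i => zbar_mem A ⟨μ ^ i, hμint.pow i⟩
  have h1 : φ μ - μ ^ ℓ ∈ A.nonunits := (isFrobeniusAt_iff.1 hφ).2 μ (by simpa using hμA 1)
  -- `ξ = φ μ * μ ^ (ℓ (N - 1))` is an `N`-th root of unity congruent to `1`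
  have hinv : μ ^ ℓ * μ ^ (ℓ * (N - 1)) = 1 := by
    have e : ℓ + ℓ * (N - 1) = N * ℓ := by
      obtain ⟨n, rfl⟩ : ∃ n, N = n + 1 := ⟨N - 1, (Nat.sub_add_cancel hN).symm⟩
      rw [Nat.add_sub_cancel]; ring
    rw [← pow_add, e, pow_mul, hμ, one_pow]
  set ξ : Qb := φ μ * μ ^ (ℓ * (N - 1)) with hξdef
  have hξN : ξ ^ N = 1 := by
    rw [hξdef, mul_pow, ← map_pow, hμ, map_one, one_mul, ← pow_mul, mul_comm, pow_mul, hμ, one_pow]
  have hξ1 : 1 - ξ ∈ A.nonunits := by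
    have e : 1 - ξ = -(μ ^ (ℓ * (N - 1)) * (φ μ - μ ^ ℓ)) := by
      rw [hξdef, mul_sub, mul_comm (μ ^ (ℓ * (N - 1))) (μ ^ ℓ), hinv]; ring
    rw [e]
    have := mul_mem_nonunits_of_mem (hμA (ℓ * (N - 1))) h1
    rw [ValuationSubring.mem_nonunits_iff] at this ⊢
    rwa [Valuation.map_neg]
  have hξ := eq_one_of_one_sub_mem_nonunits hA hN hcop hξN hξ1
  calc φ μ = φ μ * (μ ^ ℓ * μ ^ (ℓ * (N - 1))) := by rw [hinv, mul_one]
    _ = ξ * μ ^ ℓ := by rw [hξdef]; ring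
    _ = μ ^ ℓ := by rw [hξ, one_mul]

/-- powers of a Frobenius element on roots of unity -/
theorem frobenius_pow_apply_rootOfUnity {A : ValuationSubring Qb} {ℓ N : ℕ}
    (hA : A.LiesOverPrime ℓ) (hN : 0 < N) (hcop : Nat.Coprime N ℓ) {φ : GQ}
    (hφ : A.IsFrobeniusAt φ ℓ) (j : ℕ) {μ : Qb} (hμ : μ ^ N = 1) : (φ ^ j) μ = μ ^ ℓ ^ j := by
  induction j generalizing μ with
  | zero => simp
  | succ j ih =>
    rw [pow_succ, AlgEquiv.mul_apply, frobenius_apply_rootOfUnity hA hN hcop hμ hφ,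
      ih (μ := μ ^ ℓ) (by rw [← pow_mul, mul_comm, pow_mul, hμ, one_pow]), ← pow_mul, ← pow_succ']

/-! ### the determinant -/

/-- **the determinant of the mod `p` representation of an integral model is the mod `p` cyclotomic character**
(in the form of the Prelude's `DetIsCyclotomic`): if `g` acts on `μ_p` by `μ ↦ μ ^ a` then `det ρ̄(g) = a`. -/
theorem det_rhoE_eq_of_rootAction (W : WeierstrassCurve ℤ) (hΔ : W.Δ ≠ 0) (p : ℕ) [hp : Fact p.Prime]
    (g : GQ) (a : ℕ) (ha : ∀ μ : Qb, μ ^ p = 1 → g μ = μ ^ a) :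
    (rhoE W hΔ p g).det = (a : ZMod p) := by
  haveI : NeZero p := ⟨hp.out.ne_zero⟩
  obtain ⟨ζ, hζ⟩ := HasEnoughRootsOfUnity.exists_primitiveRoot Qb p
  obtain ⟨L₁, hL₁, h₁⟩ := rhoE_finiteLevel W hΔ p
  have hζint : IsIntegral ℚ ζ :=
    (isIntegral_of_isPrimitiveRoot hp.out.pos hζ).tower_top
  set L₂ : IntermediateField ℚ Qb := IntermediateField.adjoin ℚ {ζ} with hL₂def
  have hL₂ : FiniteDimensional ℚ L₂ := IntermediateField.adjoin.finiteDimensional hζint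
  have := hL₁
  have hL : FiniteDimensional ℚ ↥(L₁ ⊔ L₂) := IntermediateField.finiteDimensional_sup L₁ L₂
  set S₀ : Finset ℕ := insert p W.Δ.natAbs.primeFactors with hS₀
  obtain ⟨ℓ, A, φ, j, hℓ, hℓS, hA, hφ, hφg⟩ := Fermat.Agent.S31lib.WC.brickWC S₀ (L₁ ⊔ L₂) hL g
  have hℓp : ℓ ≠ p := by
    rintro rfl
    exact hℓS (Finset.mem_insert_self _ _)
  have hgood : ¬ (ℓ : ℤ) ∣ W.Δ := by
    intro hd
    apply hℓS
    rw [hS₀, Finset.mem_insert]
    right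
    rw [Nat.mem_primeFactors]
    exact ⟨hℓ, Int.natCast_dvd.mp hd, Int.natAbs_ne_zero.mpr hΔ⟩
  -- `g⁻¹ φ^j` fixes the level
  have hfix : ∀ x ∈ L₁ ⊔ L₂, (g⁻¹ * φ ^ j) x = x := by
    intro x hx
    rw [AlgEquiv.mul_apply, hφg x hx]
    exact g.symm_apply_apply x
  have e1 : rhoE W hΔ p g = rhoE W hΔ p φ ^ j := by
    have := h₁ (g⁻¹ * φ ^ j) fun x hx => hfix x (le_sup_left (a := L₁) (b := L₂) hx)
    have h3 : rhoE W hΔ p g * rhoE W hΔ p (g⁻¹ * φ ^ j) = rhoE W hΔ p (φ ^ j) := by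
      rw [← map_mul, mul_inv_cancel_left]
    rw [this, mul_one] at h3
    rw [h3, map_pow]
  have hdet := (trace_det_rhoE_frob W hΔ p hℓ hℓp hgood hA hφ).2
  rw [e1, Matrix.det_pow, hdet]
  -- the action on `ζ`
  have hcop : Nat.Coprime p ℓ := (Nat.coprime_primes hp.out hℓ).2 (Ne.symm hℓp)
  have hζL : ζ ∈ L₁ ⊔ L₂ :=
    le_sup_right (a := L₁) (b := L₂) (IntermediateField.mem_adjoin_simple_self ℚ ζ)
  have hζg : g ζ = ζ ^ ℓ ^ j := by
    rw [← hφg ζ hζL, frobenius_pow_apply_rootOfUnity hA hp.out.pos hcop hφ j hζ.pow_eq_one]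
  have hpow : ζ ^ ℓ ^ j = ζ ^ a := hζg.symm.trans (ha ζ hζ.pow_eq_one)
  have hζ0 : ζ ≠ 0 := hζ.ne_zero hp.out.ne_zero
  have h5 : ζ ^ (((ℓ ^ j : ℕ) : ℤ) - ((a : ℕ) : ℤ)) = 1 := by
    rw [zpow_sub₀ hζ0, zpow_natCast, zpow_natCast, hpow, div_self (pow_ne_zero _ hζ0)]
  have h6 : (p : ℤ) ∣ ((ℓ ^ j : ℕ) : ℤ) - ((a : ℕ) : ℤ) := (hζ.zpow_eq_one_iff_dvd _).1 h5
  have h7 : (((((ℓ ^ j : ℕ) : ℤ) - ((a : ℕ) : ℤ) : ℤ)) : ZMod p) = 0 :=
    (ZMod.intCast_zmod_eq_zero_iff_dvd _ p).2 h6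
  push_cast at h7
  exact sub_eq_zero.1 h7

/-! ### the Frey curve -/

open WeierstrassCurve WeierstrassCurve.Affine WeierstrassCurve.Affine.Point in
/-- the Frey module in the coordinates of an integral model (`S44lib.Q1.exists_freyCoord` without the
irreducibility hypothesis) -/
theorem exists_freyCoord' (P : FreyPackage) [hpf : Fact P.p.Prime] (W : WeierstrassCurve ℤ)
    (hW : W.IsIntegralModelOf P.freyCurve) :
    ∃ (hΔ : W.Δ ≠ 0) (d : Fermat.Agent.S44lib.FreyTors P ≃+ (Fin 2 → ZMod P.p)),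
      ∀ (σ : GQ) (x : Fermat.Agent.S44lib.FreyTors P), d (σ • x) = rhoE W hΔ P.p σ *ᵥ d x := by
  obtain ⟨C, hC⟩ := hW
  have hΔq : (W.map (Int.castRingHom ℚ) : WeierstrassCurve ℚ).Δ ≠ 0 := by
    rw [← hC, WeierstrassCurve.variableChange_Δ]
    exact mul_ne_zero (pow_ne_zero _ (Units.ne_zero _)) (P.freyCurve.isUnit_Δ.ne_zero)
  have hΔ : W.Δ ≠ 0 := by
    intro h0
    apply hΔq
    rw [WeierstrassCurve.map_Δ, h0, _root_.map_zero]
  obtain ⟨ψ, hψ⟩ := exists_pointEquiv_of_variableChange P.freyCurve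
    (WQ' W) C hC
  refine ⟨hΔ, (torsEquivOfEquiv ψ (P.p : ℤ)).symm.trans (coordE W hΔ P.p), ?_⟩
  intro σ x
  rw [AddEquiv.trans_apply, AddEquiv.trans_apply, ← coordE_smul]
  congr 1
  apply (torsEquivOfEquiv ψ (P.p : ℤ)).injective
  rw [AddEquiv.apply_symm_apply]
  apply Subtype.ext
  rw [torsEquivOfEquiv_coe]
  show σ • (x : ((P.freyCurve : Affine ℚ)⁄Qb).Point) = ψ (σ • _)
  rw [hψ, ← torsEquivOfEquiv_coe ψ (P.p : ℤ), AddEquiv.apply_symm_apply]

/-- the integral Frey model is an integral model of the Frey curve -/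
theorem freyCurveInt_isIntegralModelOf (P : FreyPackage) :
    P.freyCurveInt.IsIntegralModelOf P.freyCurve :=
  ⟨1, by rw [one_smul]; exact (Fermat.Agent.S12lib.freyModelStmt P).1⟩

/-- **`DetFrobStmt`** (unfolded): a Frobenius element at `r ≠ p` acting on `E[p]` of the Frey curve through the
scalar `c` has `c² ≡ r (mod p)`. -/
theorem detFrob (P : FreyPackage) (r : ℕ) (A : ValuationSubring Qb) (hr : r.Prime) (hrp : r ≠ P.p)
    (hA : A.LiesOverPrime r) (φ : GQ) (hφ : A.IsFrobeniusAt φ r) (c : ℤ)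
    (hc : ∀ x : Fermat.Agent.S44lib.FreyTors P, φ • x = c • x) : (P.p : ℤ) ∣ c ^ 2 - r := by
  haveI hpf : Fact P.p.Prime := ⟨P.pp⟩
  obtain ⟨hΔ, d, hd⟩ := exists_freyCoord' P P.freyCurveInt (freyCurveInt_isIntegralModelOf P)
  have hcop : Nat.Coprime P.p r := (Nat.coprime_primes P.pp hr).2 (Ne.symm hrp)
  have hdet : (rhoE P.freyCurveInt hΔ P.p φ).det = (r : ZMod P.p) :=
    det_rhoE_eq_of_rootAction P.freyCurveInt hΔ P.p φ r fun μ hμ =>
      frobenius_apply_rootOfUnity hA P.pp.pos hcop hμ hφ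
  have hscal : rhoE P.freyCurveInt hΔ P.p φ = (c : ZMod P.p) • (1 : Matrix (Fin 2) (Fin 2) (ZMod P.p)) := by
    apply Matrix.mulVec_injective
    funext v
    obtain ⟨x, rfl⟩ := d.surjective v
    rw [← hd, hc, map_zsmul, Matrix.smul_mulVec, Matrix.one_mulVec]
    exact (Int.cast_smul_eq_zsmul (ZMod P.p) c (d x)).symm
  rw [hscal, Matrix.det_smul, Matrix.det_one, mul_one, Fintype.card_fin] at hdet
  have h7 : (((c ^ 2 - (r : ℤ) : ℤ)) : ZMod P.p) = 0 := by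
    push_cast
    rw [hdet, sub_self]
  exact (ZMod.intCast_zmod_eq_zero_iff_dvd _ P.p).1 h7

end Fermat.Agent.S43lib.B3
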